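import Fermat.Agent.ModLift.Tangent.LevelInterface
import Fermat.Agent.ModLift.Modules.Interface
import Fermat.Agent.Lowering.P6.Interface

/-!
# Exact local relations in the algebra of a level: interface
-/

set_option autoImplicit false

noncomputable section

open IsLocalRing

namespace FLTAgent.ModLift

open FLTAgent.TWPrimes

local notation "LL" => AlgebraicClosure ℚ
local notation "GG" => (AlgebraicClosure ℚ ≃ₐ[ℚ] AlgebraicClosure ℚ)
local notation "VS" => ValuationSubring (AlgebraicClosure ℚ)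
local notation "M2" => Matrix (Fin 2) (Fin 2)

/-- Away from `p`: the determinant, the relation of a tame generator, and generation by it. -/
def TargetTameRel : Prop :=
  ∀ (O : Type) [CommRing O] [IsDomain O] [IsDiscreteValuationRing O] (p : ℕ) [Fact p.Prime]
    [Algebra ℤ_[p] O] [Module.Finite ℤ_[p] O] [Algebra (ZMod p) (ResidueField O)],
    (p : O) ∈ maximalIdeal O →
    ∀ (D : Datum p (ResidueField O)) (S : Finset Nat.Primes) (L : LevelRep D S) (l : ℕ),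
      l.Prime → l ≠ p → ∀ V : VS, V.LiesOverPrime l →
      (∀ σ ∈ V.inertiaSubgroupIn ℚ, Matrix.det (L.ρ σ : M2 L.R) = 1) ∧
      (∀ φ : GG, V.IsFrobeniusAt φ l → Matrix.det (L.ρ φ : M2 L.R) = (l : L.R)) ∧
      ((∀ σ ∈ V.inertiaSubgroupIn ℚ, D.rb σ = 1) → ∀ T : Lowering.P6.TameGen p l V,
        (L.ρ T.φ : M2 L.R) * (L.ρ T.σ : M2 L.R) =
            (L.ρ T.σ : M2 L.R) ^ l * (L.ρ T.φ : M2 L.R) ∧
        (∀ σ ∈ V.inertiaSubgroupIn ℚ, ∃ k : ℕ, ∀ d ∈ tanSp L.red, ∀ u w,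
          d ((L.ρ σ : M2 L.R) u w) = (k : ResidueField O) * d ((L.ρ T.σ : M2 L.R) u w)) ∧
        ∀ f : L.R →ₐ[O] O, (L.ρ T.σ : M2 L.R).map f = 1 →
          ∀ σ ∈ V.inertiaSubgroupIn ℚ, (L.ρ σ : M2 L.R).map f = 1)

/-- Tame generators at which the twisting characters take one non-trivial value. -/
def TargetCharChoice : Prop :=
  ∀ (p : ℕ) [Fact p.Prime] (O : Type) [CommRing O] [IsDomain O] [IsDiscreteValuationRing O]
    [Algebra ℤ_[p] O] (S : Setup p O), S.T.Nonempty → (∀ t ∈ S.T, t ≠ p) →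
    ∃ ζ : Oˣ, ζ ^ p = 1 ∧ ζ ≠ 1 ∧
      ∀ (t : ℕ) (ht : t ∈ S.T) (V : VS), V.LiesOverPrime t → ∀ φ : GG, V.IsFrobeniusAt φ t →
        ∃ (T : Lowering.P6.TameGen p t V) (u : (ZMod t)ˣ), (T.φ : GG) = φ ∧
          (∀ x : LL, x ^ t = 1 → (T.σ : GG) x = x ^ (u : ZMod t).val) ∧
          S.χ t ht u ^ ((p + 1) / 2) = ζ

/-- Unipotent inertia with a Frobenius trace not congruent to `± (l + 1)` is trivial. -/
def TargetAuxUnramified : Prop :=
  ∀ (O : Type) [CommRing O] [IsDomain O] [IsDiscreteValuationRing O] (p : ℕ) [Fact p.Prime]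
    [Algebra ℤ_[p] O] [Module.Finite ℤ_[p] O] [CharZero O] [Algebra (ZMod p) (ResidueField O)],
    (p : O) ∈ maximalIdeal O → (2 : ResidueField O) ≠ 0 →
    ∀ (D : Datum p (ResidueField O)) (S : Finset Nat.Primes) (L : LevelRep D S),
      (∀ a : O, a ≠ 0 → ∀ x : L.R, algebraMap O L.R a * x = 0 → x = 0) →
    ∀ (l : ℕ), l.Prime → l ≠ p → ∀ V : VS, V.LiesOverPrime l →
      (∀ σ ∈ V.inertiaSubgroupIn ℚ, D.rb σ = 1) →
      (∀ σ ∈ V.inertiaSubgroupIn ℚ, Matrix.trace (L.ρ σ : M2 L.R) = 2) →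
      (∀ φ : GG, V.IsFrobeniusAt φ l →
        Matrix.trace (D.rb φ : M2 (ResidueField O)) ^ 2 ≠ ((l : ResidueField O) + 1) ^ 2) →
      ∀ σ ∈ V.inertiaSubgroupIn ℚ, L.ρ σ = 1

/-- At `p`: Frobenius acts on the unramified line by a unit of the algebra. -/
def TargetUnitRoot : Prop :=
  ∀ (O : Type) [CommRing O] [IsDomain O] [IsDiscreteValuationRing O] (p : ℕ) [Fact p.Prime]
    [Algebra ℤ_[p] O] [Module.Finite ℤ_[p] O] [Algebra (ZMod p) (ResidueField O)],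
    (p : O) ∈ maximalIdeal O →
    ∀ (D : Datum p (ResidueField O)) (S : Finset Nat.Primes) (L : LevelRep D S) (V : VS),
      V.LiesOverPrime p → ∀ φ : GG, V.IsFrobeniusAt φ p → ∀ ε : O, ε ^ 2 = 1 →
      (∀ σ ∈ V.inertiaSubgroupIn ℚ,
        ((D.rb σ : M2 (ResidueField O)) - Matrix.det (D.rb σ : M2 (ResidueField O)) • 1) *
          ((D.rb φ : M2 (ResidueField O)) - residue O ε • 1) = 0) →
      (∀ σ ∈ V.inertiaSubgroupIn ℚ, ∀ τ ∈ V.inertiaSubgroupIn ℚ,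
        ((L.ρ σ : M2 L.R) - Matrix.det (L.ρ σ : M2 L.R) • 1) * ((L.ρ τ : M2 L.R) - 1) = 0) →
      ∃ z z' : L.R, z * z' = 1 ∧ L.red z = residue O ε ∧
        (∀ σ ∈ V.inertiaSubgroupIn ℚ,
          ((L.ρ σ : M2 L.R) - Matrix.det (L.ρ σ : M2 L.R) • 1) *
            ((L.ρ φ : M2 L.R) - z • 1) = 0) ∧
        ∀ f : L.R →ₐ[O] O,
          (∀ σ ∈ V.inertiaSubgroupIn ℚ,
            (((L.ρ σ : M2 L.R) - Matrix.det (L.ρ σ : M2 L.R) • 1).map f) *
              ((L.ρ φ : M2 L.R).map f - ε • 1) = 0) → f z = ε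

end FLTAgent.ModLift
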