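import Fermat.Agent.ModLift.Lift.Local.Interface
import Fermat.Agent.Lowering.P6.LocalChoice

/-!
# The choice of tame generators at the scalar primes
-/

set_option autoImplicit false
set_option linter.style.haveILetI false

noncomputable section

open IsLocalRing
open scoped Pointwise

namespace FLTAgent.ModLift

open FLTAgent.Lowering.P6 (TameGen targetTameGen pow_half_ne_one exists_inertia_autToPow)

local notation "LL" => AlgebraicClosure ℚ
local notation "GG" => (AlgebraicClosure ℚ ≃ₐ[ℚ] AlgebraicClosure ℚ)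
local notation "VS" => ValuationSubring (AlgebraicClosure ℚ)

theorem targetCharChoice : TargetCharChoice := by
  classical
  intro p hp O _ _ _ _ S hT hTp
  have hhalf : ¬ p ∣ (p + 1) / 2 := fun h => by
    have h1 := Nat.le_of_dvd (by have := hp.out.two_le; omega) h
    have := hp.out.two_le
    omega
  obtain ⟨t₀, ht₀⟩ := hT
  obtain ⟨u₀, hu₀⟩ : ∃ u, S.χ t₀ ht₀ u ≠ 1 := by
    by_contra h
    push Not at h
    exact S.χ_ne t₀ ht₀ (MonoidHom.ext h)
  refine ⟨S.χ t₀ ht₀ u₀ ^ ((p + 1) / 2), by rw [← pow_mul, mul_comm, pow_mul, S.χ_pow, one_pow],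
    pow_half_ne_one (S.χ_pow t₀ ht₀ u₀) hu₀ hhalf, fun t ht V hV φ hφ => ?_⟩
  obtain ⟨htp, -, -⟩ := S.T_prime t ht
  haveI : Fact t.Prime := ⟨htp⟩
  haveI : NeZero t := ⟨htp.ne_zero⟩
  haveI := Mazur.isGalois_QQb
  obtain ⟨T, hT⟩ := targetTameGen p t hp.out htp (hTp t ht) V hV φ hφ
  haveI : NeZero ((t : ℕ) : LL) := ⟨Nat.cast_ne_zero.2 htp.ne_zero⟩
  obtain ⟨z, hz⟩ := HasEnoughRootsOfUnity.exists_primitiveRoot LL t
  set χ := S.χ t ht with hχ
  have hc : χ (hz.autToPow ℚ (T.σ : GG)) ≠ 1 := by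
    intro h1
    haveI : Finite χ.range := Finite.of_surjective χ.rangeRestrict χ.rangeRestrict_surjective
    let f : V.decompositionSubgroup ℚ →* χ.range :=
      χ.rangeRestrict.comp ((hz.autToPow ℚ).comp (V.decompositionSubgroup ℚ).subtype)
    haveI : FiniteDimensional ℚ (IntermediateField.adjoin ℚ ({z} : Set LL)) :=
      IntermediateField.adjoin.finiteDimensional
        (Algebra.IsAlgebraic.isAlgebraic (R := ℚ) z).isIntegral
    obtain ⟨hg, -, -⟩ := T.gen f ⟨IntermediateField.adjoin ℚ ({z} : Set LL), inferInstance,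
      fun a s hs => by
        have hfix : (s : GG) z = z := (IntermediateField.mem_fixingSubgroup_iff _ _).mp hs z
          (IntermediateField.subset_adjoin ℚ _ rfl)
        have h1 : hz.autToPow ℚ (s : GG) = 1 := Units.ext (ZMod.val_injective t
          (hz.pow_inj (ZMod.val_lt _) (ZMod.val_lt _)
            (by rw [hz.autToPow_spec ℚ, hfix, Units.val_one, ZMod.val_one, pow_one])))
        have hfs : f s = 1 := Subtype.ext (by
          show χ (hz.autToPow ℚ (s : GG)) = 1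
          rw [h1, map_one])
        rw [map_mul, hfs, mul_one]⟩
      fun τ _ => ⟨1, Subtype.ext (by rw [pow_one]; exact S.χ_pow t ht _)⟩
    have htriv : f T.σ = 1 := Subtype.ext h1
    obtain ⟨u, hu⟩ : ∃ u, χ u ≠ 1 := by
      by_contra h
      push Not at h
      exact S.χ_ne t ht (MonoidHom.ext h)
    obtain ⟨σ, hσ, hσu⟩ := exists_inertia_autToPow hV hz u
    have h2 := hg ⟨σ, Places.inertia_le_decomposition V hσ⟩ hσ
    rw [htriv, Subgroup.zpowers_one_eq_bot, Subgroup.mem_bot] at h2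
    exact hu (by rw [← hσu]; exact congrArg Subtype.val h2)
  set z1 := χ (hz.autToPow ℚ (T.σ : GG)) ^ ((p + 1) / 2) with hz1
  have hz1p : z1 ^ p = 1 := by rw [hz1, ← pow_mul, mul_comm, pow_mul, S.χ_pow, one_pow]
  have hz1ne : z1 ≠ 1 := pow_half_ne_one (S.χ_pow t ht _) hc hhalf
  haveI : NeZero p := ⟨hp.out.ne_zero⟩
  have hprim : IsPrimitiveRoot ((z1 : Oˣ) : O) p := by
    rw [IsPrimitiveRoot.coe_units_iff, IsPrimitiveRoot.iff_orderOf]
    exact orderOf_eq_prime hz1p hz1ne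
  obtain ⟨j, -, hj⟩ := hprim.eq_pow_of_pow_eq_one
    (ξ := ((S.χ t₀ ht₀ u₀ ^ ((p + 1) / 2) : Oˣ) : O))
    (by rw [← Units.val_pow_eq_pow_val, ← pow_mul, mul_comm, pow_mul, S.χ_pow, one_pow,
      Units.val_one])
  have hjp : ¬ p ∣ j := by
    rintro ⟨k, rfl⟩
    rw [pow_mul, hprim.pow_eq_one, one_pow] at hj
    exact pow_half_ne_one (S.χ_pow t₀ ht₀ u₀) hu₀ hhalf (Units.ext hj.symm)
  refine ⟨T.pow j hjp, hz.autToPow ℚ ((T.σ : GG) ^ j), hT, fun x hx => ?_, ?_⟩
  · obtain ⟨i, -, rfl⟩ := hz.eq_pow_of_pow_eq_one hx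
    show ((T.σ : GG) ^ j) (z ^ i) = _
    rw [map_pow ((T.σ : GG) ^ j), ← hz.autToPow_spec ℚ ((T.σ : GG) ^ j), ← pow_mul, ← pow_mul,
      mul_comm]
  · refine Units.ext ?_
    rw [map_pow, map_pow, ← pow_mul, mul_comm, pow_mul, ← hz1, Units.val_pow_eq_pow_val, hj]

end FLTAgent.ModLift
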