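import Fermat.Agent.ModLift.Tangent.LevelInterface
import Fermat.Agent.Lowering.P6.Congruences
import Fermat.Agent.Lowering.P6.Tame

/-!
# Finite quotients of the algebra of a level representation

The algebra is separated for the powers of `p` with finite quotients, and an element of inertia
that is residually trivial has `p`-power order in every quotient.
-/

set_option autoImplicit false
set_option linter.unusedSectionVars false
set_option linter.style.haveILetI false

noncomputable section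

open IsLocalRing

namespace FLTAgent.ModLift.LevelRep

open FLTAgent.TWPrimes
open FLTAgent.Lowering (detGL)
open FLTAgent.Lowering.P6 (TameGen CongrOne targetTameGen finite_quotient)

local notation "LL" => AlgebraicClosure ℚ
local notation "GG" => (AlgebraicClosure ℚ ≃ₐ[ℚ] AlgebraicClosure ℚ)
local notation "VS" => ValuationSubring (AlgebraicClosure ℚ)
local notation "M2" => Matrix (Fin 2) (Fin 2)

variable {O : Type} [CommRing O] [IsDomain O] [IsDiscreteValuationRing O]
  {p : ℕ} [hp : Fact p.Prime] [Algebra ℤ_[p] O] [Module.Finite ℤ_[p] O]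
  [Algebra (ZMod p) (ResidueField O)] {D : Datum p (ResidueField O)} {S : Finset Nat.Primes}
  (L : LevelRep D S) (hpO : (p : O) ∈ maximalIdeal O)

include hpO

theorem natCast_mem_max : (p : L.R) ∈ maximalIdeal L.R := by
  rw [← Lowering.P6.red_eq_zero_iff L.red, map_natCast, ← map_natCast (residue O),
    residue_eq_zero_iff]
  exact hpO

theorem eq_of_forall_sub_mem {x y : L.R}
    (h : ∀ n : ℕ, x - y ∈ Ideal.span {(p : L.R) ^ n}) : x = y := by
  haveI := L.finite_R
  haveI : IsNoetherianRing L.R := IsNoetherianRing.of_finite O L.R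
  have hne : Ideal.span {(p : L.R)} ≠ ⊤ := fun ht =>
    (maximalIdeal.isMaximal L.R).ne_top (top_le_iff.mp (ht ▸
      (Ideal.span_singleton_le_iff_mem _).2 (L.natCast_mem_max hpO)))
  have h1 : x - y ∈ ⨅ n : ℕ, Ideal.span {(p : L.R)} ^ n :=
    Submodule.mem_iInf _ |>.2 fun n => by rw [Ideal.span_singleton_pow]; exact h n
  rw [Ideal.iInf_pow_eq_bot_of_isLocalRing _ hne, Ideal.mem_bot, sub_eq_zero] at h1
  exact h1

omit hpO in
/-- The representation modulo a power of `p`. -/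
def redQ (n : ℕ) : GG →* GL (Fin 2) (L.R ⧸ Ideal.span {(p : L.R) ^ n}) :=
  (Matrix.GeneralLinearGroup.map (Ideal.Quotient.mk _)).comp L.ρ

omit hpO in
theorem finite_redQ (n : ℕ) : Finite (GL (Fin 2) (L.R ⧸ Ideal.span {(p : L.R) ^ n})) := by
  haveI := L.finite_R
  haveI : Finite (L.R ⧸ Ideal.span {(p : L.R) ^ n}) :=
    finite_quotient (O := O) (Ideal.mem_span_singleton_self _)
  infer_instance

omit hpO in
theorem levC_redQ (V : VS) (n : ℕ) :
    Lowering.P1.LevC (V.decompositionSubgroup ℚ).subtype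
      ((L.redQ n).comp (V.decompositionSubgroup ℚ).subtype) := by
  obtain ⟨K, hK, hlev⟩ := L.continuous n
  refine ⟨K, hK, fun g s hs => ?_⟩
  have h1 : L.redQ n (s : GG) = 1 := by
    refine Units.ext (Matrix.ext fun i j => ?_)
    rw [Units.val_one, ← Matrix.map_one (Ideal.Quotient.mk (Ideal.span {(p : L.R) ^ n}))
      (map_zero _) (map_one _), Matrix.map_apply]
    exact Ideal.Quotient.eq.2 (hlev (s : GG)
      ((IntermediateField.mem_fixingSubgroup_iff _ _).1 hs) i j)
  show L.redQ n ((g * s : V.decompositionSubgroup ℚ) : GG) = L.redQ n (g : GG)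
  rw [Subgroup.coe_mul, map_mul, h1, mul_one]

/-- Residually trivial elements have `p`-power order modulo powers of `p`. -/
theorem exists_pow_eq_one (n : ℕ) {σ : GG} (hσ : D.rb σ = 1) :
    ∃ a : ℕ, L.redQ n σ ^ p ^ a = 1 := by
  haveI := L.finite_R
  haveI : IsNoetherianRing L.R := IsNoetherianRing.of_finite O L.R
  set I := Ideal.span {(p : L.R) ^ n} with hIdef
  haveI : Finite (L.R ⧸ I) := finite_quotient (O := O) (Ideal.mem_span_singleton_self _)
  have hM : CongrOne (maximalIdeal L.R) (L.ρ σ : M2 L.R) := fun i j => by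
    rw [← Lowering.P6.red_eq_zero_iff L.red, map_sub,
      ← Matrix.map_apply (M := (L.ρ σ : M2 L.R)) (f := L.red), L.red_rho, hσ]
    by_cases h : i = j
    · subst h; simp
    · simp [Matrix.one_apply_ne h]
  -- a power of the maximal ideal lies in `I`
  obtain ⟨N, hN⟩ : ∃ N, maximalIdeal L.R ^ N ≤ I := by
    by_cases hn : n = 0
    · exact ⟨0, by simp [hIdef, hn]⟩
    haveI : Nontrivial (L.R ⧸ I) := Ideal.Quotient.nontrivial_iff.2 (fun h =>
      (maximalIdeal.isMaximal L.R).ne_top (top_le_iff.mp (h ▸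
        (Ideal.span_singleton_le_iff_mem _).2 (Ideal.pow_mem_of_mem _ (L.natCast_mem_max hpO) _
          (Nat.pos_of_ne_zero hn)))))
    haveI : IsLocalRing (L.R ⧸ I) :=
      IsLocalRing.of_surjective' (Ideal.Quotient.mk I) Ideal.Quotient.mk_surjective
    obtain ⟨N, hN⟩ := IsArtinianRing.isNilpotent_jacobson_bot (R := L.R ⧸ I)
    rw [IsLocalRing.jacobson_eq_maximalIdeal ⊥ bot_ne_top] at hN
    refine ⟨N, fun x hx => Ideal.Quotient.eq_zero_iff_mem.1 ?_⟩
    have h1 : Ideal.Quotient.mk I x ∈ maximalIdeal (L.R ⧸ I) ^ N := by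
      have h2 := Ideal.mem_map_of_mem (Ideal.Quotient.mk I) hx
      rw [Ideal.map_pow] at h2
      refine Ideal.pow_right_mono ?_ N h2
      refine Ideal.map_le_iff_le_comap.2 fun y hy => ?_
      rw [Ideal.mem_comap, mem_maximalIdeal]
      intro hu
      obtain ⟨z, hz⟩ := Ideal.Quotient.mk_surjective (↑hu.unit⁻¹ : L.R ⧸ I)
      have h4 : y * z - 1 ∈ I :=
        Ideal.Quotient.eq.1 (by rw [map_mul, hz, map_one, hu.mul_val_inv])
      have h5 : y * z - 1 ∈ maximalIdeal L.R := (Ideal.span_singleton_le_iff_mem _).2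
        (Ideal.pow_mem_of_mem _ (L.natCast_mem_max hpO) _ (Nat.pos_of_ne_zero hn)) h4
      exact (maximalIdeal.isMaximal L.R).ne_top ((Ideal.eq_top_iff_one _).2 (by
        simpa using sub_mem (Ideal.mul_mem_right z _ hy) h5))
    rwa [hN] at h1
  refine ⟨N, Units.ext (Matrix.ext fun i j => ?_)⟩
  rw [redQ, MonoidHom.comp_apply, ← map_pow]
  show Ideal.Quotient.mk I ((↑(L.ρ σ ^ p ^ N) : M2 L.R) i j) = (1 : M2 (L.R ⧸ I)) i j
  rw [← Matrix.map_one (Ideal.Quotient.mk I) (map_zero _) (map_one _), Matrix.map_apply,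
    Units.val_pow_eq_pow_val, Ideal.Quotient.eq]
  exact hN (Ideal.pow_le_pow_right (Nat.le_succ N)
    (hM.pow_pow hp.out (L.natCast_mem_max hpO) N i j))

section Tame

variable {l : ℕ} {V : VS} (T : TameGen p l V)
  (hres : ∀ σ ∈ V.inertiaSubgroupIn ℚ, D.rb σ = 1)

include hres

/-- The relation of a tame generator holds exactly. -/
theorem tame_relation :
    (L.ρ T.φ : M2 L.R) * (L.ρ T.σ : M2 L.R) = (L.ρ T.σ : M2 L.R) ^ l * (L.ρ T.φ : M2 L.R) := by
  ext i j
  refine L.eq_of_forall_sub_mem hpO fun n => ?_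
  haveI := L.finite_redQ n
  obtain ⟨-, -, h⟩ := T.gen ((L.redQ n).comp (V.decompositionSubgroup ℚ).subtype) (L.levC_redQ V n)
    fun τ hτ => L.exists_pow_eq_one hpO n (hres τ hτ)
  rw [MonoidHom.comp_apply, MonoidHom.comp_apply, mul_inv_eq_iff_eq_mul] at h
  rw [← Ideal.Quotient.eq]
  have h1 := congrArg (fun g : GL (Fin 2) (L.R ⧸ Ideal.span {(p : L.R) ^ n}) =>
    (g : M2 (L.R ⧸ Ideal.span {(p : L.R) ^ n})) i j) h
  simp only [Units.val_mul, Units.val_pow_eq_pow_val] at h1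
  set π := (Ideal.Quotient.mk (Ideal.span {(p : L.R) ^ n})).mapMatrix (m := Fin 2)
  change (π (L.ρ T.φ : M2 L.R) * π (L.ρ T.σ : M2 L.R)) i j =
    (π (L.ρ T.σ : M2 L.R) ^ l * π (L.ρ T.φ : M2 L.R)) i j at h1
  rwa [← map_pow, ← map_mul, ← map_mul] at h1

/-- Modulo every power of `p`, inertia consists of powers of the generator. -/
theorem inertia_pow (n : ℕ) {τ : GG} (hτ : τ ∈ V.inertiaSubgroupIn ℚ) :
    ∃ k : ℕ, ∀ i j, (L.ρ τ : M2 L.R) i j - ((L.ρ T.σ : M2 L.R) ^ k) i j ∈
      Ideal.span {(p : L.R) ^ n} := by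
  haveI := L.finite_redQ n
  obtain ⟨h, -, -⟩ := T.gen ((L.redQ n).comp (V.decompositionSubgroup ℚ).subtype) (L.levC_redQ V n)
    fun τ hτ => L.exists_pow_eq_one hpO n (hres τ hτ)
  obtain ⟨k, hk⟩ := mem_powers_iff_mem_zpowers.2
    (h ⟨τ, Places.inertia_le_decomposition V hτ⟩ hτ)
  refine ⟨k, fun i j => Ideal.Quotient.eq.1 ?_⟩
  have h1 := congrArg (fun g : GL (Fin 2) (L.R ⧸ Ideal.span {(p : L.R) ^ n}) =>
    (g : M2 (L.R ⧸ Ideal.span {(p : L.R) ^ n})) i j) hk
  simp only [Units.val_pow_eq_pow_val, MonoidHom.comp_apply] at h1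
  set π := (Ideal.Quotient.mk (Ideal.span {(p : L.R) ^ n})).mapMatrix (m := Fin 2)
  change (π (L.ρ T.σ : M2 L.R) ^ k) i j = (π (L.ρ τ : M2 L.R)) i j at h1
  rw [← map_pow] at h1
  exact h1.symm

/-- A point at which the tame generator is trivial is trivial on inertia. -/
theorem map_inertia_eq_one (f : L.R →ₐ[O] O) (h1 : (L.ρ T.σ : M2 L.R).map f = 1) {τ : GG}
    (hτ : τ ∈ V.inertiaSubgroupIn ℚ) : (L.ρ τ : M2 L.R).map f = 1 := by
  have hne : Ideal.span {(p : O)} ≠ ⊤ := fun ht =>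
    (maximalIdeal.isMaximal O).ne_top (top_le_iff.mp (ht ▸
      (Ideal.span_singleton_le_iff_mem _).2 hpO))
  ext i j
  rw [Matrix.map_apply, ← sub_eq_zero, ← Ideal.mem_bot,
    ← Ideal.iInf_pow_eq_bot_of_isLocalRing _ hne]
  refine Submodule.mem_iInf _ |>.2 fun n => ?_
  obtain ⟨k, hk⟩ := L.inertia_pow hpO T hres n hτ
  have hpow : f (((L.ρ T.σ : M2 L.R) ^ k) i j) = (1 : M2 O) i j := by
    have h2 : (((L.ρ T.σ : M2 L.R) ^ k).map f) = 1 := by
      have h3 := map_pow (f : L.R →+* O).mapMatrix (L.ρ T.σ : M2 L.R) k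
      have h4 : (f : L.R →+* O).mapMatrix (L.ρ T.σ : M2 L.R) = 1 := h1
      rw [h4, one_pow] at h3
      exact h3
    exact congrFun₂ h2 i j
  obtain ⟨c, hc⟩ := Ideal.mem_span_singleton.1 (hk i j)
  rw [Ideal.span_singleton_pow, Ideal.mem_span_singleton, ← hpow, ← map_sub, hc, map_mul, map_pow,
    map_natCast]
  exact dvd_mul_right _ _

end Tame

theorem det_frobenius {l : ℕ} (hl : l.Prime) (hlp : l ≠ p) {V : VS} (hV : V.LiesOverPrime l)
    {φ : GG} (hφ : V.IsFrobeniusAt φ l) : Matrix.det (L.ρ φ : M2 L.R) = (l : L.R) :=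
  L.eq_of_forall_sub_mem hpO fun n =>
    L.det_cyclotomic n φ l (DetCyclo.cycloExponent_frobenius hl hlp hV hφ n)

theorem det_inertia {l : ℕ} (hl : l.Prime) (hlp : l ≠ p) {V : VS} (hV : V.LiesOverPrime l)
    {σ : GG} (hσ : σ ∈ V.inertiaSubgroupIn ℚ) : Matrix.det (L.ρ σ : M2 L.R) = 1 :=
  L.eq_of_forall_sub_mem hpO fun n => by
    have := L.det_cyclotomic n σ 1 (LevelMatch.inertia_cycloExponent hl hlp hV hσ n)
    rwa [Nat.cast_one] at this

end FLTAgent.ModLift.LevelRep
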