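import Fermat.Agent.ModLift.Lift.Local.Interface
import Fermat.Agent.ModLift.Lift.Local.Quotients
import Fermat.Agent.ModLift.Tangent.Class.Basic

/-!
# Relations at a prime away from `p`
-/

set_option autoImplicit false
set_option linter.unusedSectionVars false
set_option linter.style.haveILetI false

noncomputable section

open IsLocalRing

namespace FLTAgent.ModLift

open FLTAgent.TWPrimes
open FLTAgent.Lowering.P6 (TameGen targetTameGen)

local notation "LL" => AlgebraicClosure ℚ
local notation "GG" => (AlgebraicClosure ℚ ≃ₐ[ℚ] AlgebraicClosure ℚ)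
local notation "VS" => ValuationSubring (AlgebraicClosure ℚ)
local notation "M2" => Matrix (Fin 2) (Fin 2)

namespace LocalRel

variable {O : Type} [CommRing O] [IsDomain O] [IsDiscreteValuationRing O]
  {p : ℕ} [hp : Fact p.Prime] [Algebra ℤ_[p] O] [Algebra (ZMod p) (ResidueField O)]
  {R : Type} [CommRing R] [Algebra O R]

/-- The derivative of a power of a residually trivial matrix. -/
theorem d_pow [IsLocalRing R] {red : R →ₐ[O] ResidueField O} {d : R → ResidueField O} (hd : d ∈ tanSp red)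
    {M : M2 R} (h : M.map red = 1) (k : ℕ) :
    (M ^ k).map red = 1 ∧ (M ^ k).map d = (k : ResidueField O) • M.map d := by
  induction k with
  | zero =>
    refine ⟨?_, ?_⟩
    · rw [pow_zero, Matrix.map_one _ (map_zero _) (map_one _)]
    · ext i j
      simp only [pow_zero, Matrix.map_apply, Matrix.one_apply, Nat.cast_zero, zero_smul,
        Matrix.zero_apply]
      split_ifs
      · exact Glue.d_one hd
      · exact Glue.d_zero hd
  | succ k ih =>
    refine ⟨?_, ?_⟩
    · rw [pow_succ, Matrix.map_mul, ih.1, h, mul_one]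
    · rw [pow_succ, Glue.d_matrix_mul hd, ih.1, ih.2, h, one_mul, mul_one, Nat.cast_succ,
        add_smul, one_smul, add_comm]

/-- A nilpotent matrix twisted by a conjugation is killed by `(l + 1) ^ 2 - trace ^ 2`. -/
theorem eq_zero_of_conj {Φ N : M2 R} {t l : R} (hCH : Φ * Φ = t • Φ - l • 1)
    (hrel : Φ * N = l • (N * Φ)) (hu : IsUnit ((l + 1) ^ 2 - t ^ 2)) (hΦ : IsUnit Φ.det)
    (hcancel : ∀ X : M2 R, (l * (1 - l)) • X = 0 → X = 0) : N = 0 := by
  have h1 : Φ * Φ * N = (l * l) • (N * (Φ * Φ)) := by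
    rw [mul_assoc, hrel, Matrix.mul_smul, ← mul_assoc, hrel, Matrix.smul_mul, mul_assoc, smul_smul]
  rw [hCH, Matrix.sub_mul, Matrix.smul_mul, Matrix.smul_mul, one_mul, hrel, Matrix.mul_sub,
    Matrix.mul_smul, Matrix.mul_smul, mul_one] at h1
  have h2 : (l * (1 - l)) • (t • (N * Φ) - (1 + l) • N) = 0 := by
    linear_combination (norm := module) h1
  have h3 : t • (N * Φ) = (1 + l) • N := sub_eq_zero.1 (hcancel _ h2)
  have h4 : t • (N * Φ * Φ) = (1 + l) • (N * Φ) := by
    rw [← Matrix.smul_mul, h3, Matrix.smul_mul]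
  rw [mul_assoc, hCH, Matrix.mul_sub, Matrix.mul_smul, Matrix.mul_smul, mul_one] at h4
  have h5 : t • N = (1 + l) • (N * Φ) := by
    linear_combination (norm := module) h4 - t • h3
  have h6 : ((l + 1) ^ 2 - t ^ 2) • (N * Φ) = 0 := by
    linear_combination (norm := module) (-(1 : R) - l) • h5 - t • h3
  obtain ⟨u, hu⟩ := hu
  have h7 : N * Φ = 0 := by
    rw [← one_smul R (N * Φ), ← Units.inv_mul u, mul_smul, hu, h6, smul_zero]
  have h8 := congrArg (fun X : M2 R => X * Φ⁻¹) h7
  simpa [mul_assoc, Matrix.mul_nonsing_inv _ hΦ] using h8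

theorem one_add_pow_of_sq_zero {N : M2 R} (hN : N * N = 0) (k : ℕ) :
    (1 + N) ^ k = 1 + (k : R) • N := by
  induction k with
  | zero => simp
  | succ k ih =>
    rw [pow_succ, ih, mul_add, mul_one, add_mul, one_mul, Matrix.smul_mul, hN, smul_zero,
      Nat.cast_succ, add_smul, one_smul, add_zero, add_assoc]

end LocalRel

open LocalRel

theorem targetTameRel : TargetTameRel := by
  intro O _ _ _ p _ _ _ _ hpO D S L l hl hlp V hV
  refine ⟨fun σ hσ => L.det_inertia hpO hl hlp hV hσ,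
    fun φ hφ => L.det_frobenius hpO hl hlp hV hφ, fun hres T =>
      ⟨L.tame_relation hpO T hres, fun σ hσ => ?_,
        fun f hf σ hσ => L.map_inertia_eq_one hpO T hres f hf hσ⟩⟩
  obtain ⟨k, hk⟩ := L.inertia_pow hpO T hres 1 hσ
  refine ⟨k, fun d hd u w => ?_⟩
  have h1 : (L.ρ T.σ : M2 L.R).map L.red = 1 := by
    rw [L.red_rho, hres _ T.σ_mem, Units.val_one]
  obtain ⟨y, hy⟩ := Ideal.mem_span_singleton.1 (pow_one (p : L.R) ▸ hk u w)
  have h2 : d ((L.ρ σ : M2 L.R) u w) = d (((L.ρ T.σ : M2 L.R) ^ k) u w) := by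
    rw [eq_add_of_sub_eq hy, hd.1, hd.2.1, Glue.d_natCast hd, map_natCast, Glue.natCast_p]
    simp
  rw [h2, ← Matrix.map_apply (f := d) (M := (L.ρ T.σ : M2 L.R) ^ k), (d_pow hd h1 k).2,
    Matrix.smul_apply, Matrix.map_apply, smul_eq_mul]

theorem targetAuxUnramified : TargetAuxUnramified := by
  intro O _ _ _ p _ _ _ _ _ hpO _ D S L htf l hl hlp V hV hres htr hne σ hσ
  obtain ⟨φ, hφ⟩ := Frobenius.exists_isFrobeniusAt (V := V) l hl hV
  obtain ⟨T, hT⟩ := targetTameGen p l Fact.out hl hlp V hV φ hφ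
  set M : M2 L.R := ((L.ρ T.σ : GL (Fin 2) L.R) : M2 L.R) with hM
  set Φ : M2 L.R := ((L.ρ T.φ : GL (Fin 2) L.R) : M2 L.R) with hΦ
  set t : L.R := Φ.trace with ht
  have hdM : M.det = 1 := L.det_inertia hpO hl hlp hV T.σ_mem
  have htM : M.trace = 2 := htr _ T.σ_mem
  have hdΦ : Φ.det = (l : L.R) := L.det_frobenius hpO hl hlp hV (hT.symm ▸ hφ)
  have hNN : (M - 1) * (M - 1) = 0 := by
    have h := ClassAux.cayley_two M
    rw [htM, hdM] at h
    linear_combination (norm := (simp only [sub_mul, mul_sub, one_mul, mul_one]; module)) h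
  have hrel : Φ * (M - 1) = (l : L.R) • ((M - 1) * Φ) := by
    have h := L.tame_relation hpO T hres
    rw [← hM, ← hΦ, show M = 1 + (M - 1) from (add_sub_cancel _ _).symm,
      one_add_pow_of_sq_zero hNN, mul_add, mul_one, add_mul, one_mul, Matrix.smul_mul,
      add_right_inj] at h
    exact h
  have hCH : Φ * Φ = t • Φ - (l : L.R) • 1 := by rw [← hdΦ]; exact ClassAux.cayley_two Φ
  have hunit : IsUnit (((l : L.R) + 1) ^ 2 - t ^ 2) := by
    rw [← IsLocalRing.notMem_maximalIdeal, ← Lowering.P6.red_eq_zero_iff L.red, map_sub, map_pow,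
      map_pow, map_add, map_one, map_natCast, ht, hΦ]
    intro h0
    refine hne φ hφ ?_
    rw [← L.red_rho φ, ← hT]
    refine ((sub_eq_zero.1 h0).trans ?_).symm
    exact congrArg (· ^ 2) (AddMonoidHom.map_trace L.red.toRingHom.toAddMonoidHom _)
  have hN : M - 1 = 0 := by
    refine eq_zero_of_conj hCH hrel hunit ((Matrix.isUnit_iff_isUnit_det _).1 (L.ρ T.φ).isUnit)
      fun X hX => Matrix.ext fun i j => ?_
    have h1 : algebraMap O L.R ((l : O) * (1 - (l : O))) * X i j = 0 := by
      rw [map_mul, map_sub, map_one, map_natCast]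
      exact congrFun₂ hX i j
    refine htf _ ?_ _ h1
    refine mul_ne_zero (Nat.cast_ne_zero.2 hl.ne_zero) (sub_ne_zero.2 fun h => hl.ne_one ?_)
    exact Nat.cast_injective (h.symm.trans Nat.cast_one.symm)
  refine Units.ext (Matrix.ext fun i j => L.eq_of_forall_sub_mem hpO fun n => ?_)
  obtain ⟨k, hk⟩ := L.inertia_pow hpO T hres n hσ
  have h := hk i j
  rw [← hM, sub_eq_zero.1 hN, one_pow] at h
  rwa [Units.val_one]

end FLTAgent.ModLift
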