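import Fermat.Agent.ModLift.Lift.Local.Interface
import Fermat.Agent.ModLift.Lift.Local.Quotients
import Fermat.Agent.ModLift.Tangent.Class.Basic
import Fermat.Agent.Ordinary.Main
import Fermat.Agent.TWPrimes.Group.Bridge

/-!
# The unit root at `p`

An element of inertia moving the roots of unity splits the plane of an ordinary representation into
its stable line and a complement; Frobenius acts on the quotient by the trace of its composite with
the projection.
-/

set_option autoImplicit false
set_option linter.unusedSectionVars false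
set_option linter.style.haveILetI false

noncomputable section

open IsLocalRing
open scoped Pointwise

namespace FLTAgent.ModLift

open FLTAgent.TWPrimes FLTAgent.PoitouTate ClassAux

local notation "LL" => AlgebraicClosure ℚ
local notation "GG" => (AlgebraicClosure ℚ ≃ₐ[ℚ] AlgebraicClosure ℚ)
local notation "VS" => ValuationSubring (AlgebraicClosure ℚ)
local notation "M2" => Matrix (Fin 2) (Fin 2)

/-- Compression to a projection of rank one. -/
theorem mul_mul_eq_trace_smul {A : Type*} [CommRing A] (P X : M2 A) (hd : P.det = 0) :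
    P * X * P = (P * X).trace • P := by
  rw [Matrix.det_fin_two] at hd
  ext i j
  fin_cases i <;> fin_cases j <;>
    simp [Matrix.mul_apply, Fin.sum_univ_two, Matrix.trace_fin_two, Matrix.smul_apply]
  · linear_combination (-X 1 1) * hd
  · linear_combination X 0 1 * hd
  · linear_combination X 1 0 * hd
  · linear_combination (-X 0 0) * hd

/-- The projection along the stable line attached to an ordinary relation. -/
theorem exists_projection {A : Type*} [CommRing A] {M : M2 A} {d u : A} (hu : u * (1 - d) = 1)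
    (hd : M.det = d) (hrel : (M - d • 1) * (M - 1) = 0) (htr : M.trace = 1 + d) :
    ∃ P : M2 A, P = u • (M - d • 1) ∧ P * P = P ∧ P.trace = 1 ∧ P.det = 0 ∧
      1 - P = u • (1 - M) := by
  refine ⟨_, rfl, ?_, ?_, ?_, ?_⟩
  · rw [Matrix.smul_mul, Matrix.mul_smul, smul_smul]
    have h : (M - d • 1) * (M - d • 1) = (1 - d) • (M - d • 1) := by
      linear_combination (norm := (simp only [mul_sub, mul_one, Matrix.mul_smul]; module)) hrel
    rw [h, smul_smul, mul_assoc, hu, mul_one]
  · rw [Matrix.trace_smul, Matrix.trace_sub, Matrix.trace_smul, htr, Matrix.trace_one,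
      Fintype.card_fin, smul_eq_mul, smul_eq_mul]
    linear_combination hu
  · rw [Matrix.det_fin_two] at hd ⊢
    rw [Matrix.trace_fin_two] at htr
    simp [Matrix.smul_apply]
    linear_combination (u * u) * hd - (u * u * d) * htr
  · have h1 : (1 : M2 A) = (u * (1 - d)) • 1 := by rw [hu, one_smul]
    rw [sub_eq_iff_eq_add]
    calc (1 : M2 A) = (u * (1 - d)) • 1 := h1
      _ = _ := by module

theorem targetUnitRoot : TargetUnitRoot := by
  intro O _ _ _ p _ _ _ _ hpO D S L V hV φ hφ ε _ hres hid
  have hp : p.Prime := Fact.out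
  have hp3 : 3 ≤ p := by have := hp.two_le; have := D.ne_two; omega
  obtain ⟨σ₀, hσ₀, hmove⟩ := Ordinary.exists_inertia_move_odd hp3 hV (zeta_spec p)
  set M : M2 L.R := ((L.ρ σ₀ : GL (Fin 2) L.R) : M2 L.R) with hM
  set d : L.R := M.det with hd
  have hredd : ∀ σ : GG, L.red (L.ρ σ : M2 L.R).det = (D.rb σ : M2 (ResidueField O)).det := by
    intro σ
    rw [← L.red_rho σ]
    exact RingHom.map_det L.red.toRingHom _
  have hd1 : IsUnit (1 - d) := by
    rw [← IsLocalRing.notMem_maximalIdeal, ← Lowering.P6.red_eq_zero_iff L.red, map_sub, map_one,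
      hd, hredd, sub_eq_zero, D.det_cyclo]
    intro h
    refine hmove ?_
    have h1 : om p σ₀ = 1 :=
      (algebraMap (ZMod p) (ResidueField O)).injective (h.symm.trans (map_one _).symm)
    have h2 := Glue.apply_of_pow_eq_one (p := p) σ₀ (zeta p)
      (by rw [pow_one]; exact (zeta_spec p).pow_eq_one)
    rwa [h1, ZMod.val_one, pow_one] at h2
  obtain ⟨u, hu⟩ : ∃ u, u * (1 - d) = 1 := ⟨_, hd1.unit.inv_mul⟩
  have hrel : (M - d • 1) * (M - 1) = 0 := hid σ₀ hσ₀ σ₀ hσ₀
  have hinj : Function.Injective fun X : M2 L.R => M * X := fun X Y h => by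
    have h1 := congrArg (fun Z => ((L.ρ σ₀)⁻¹ : GL (Fin 2) L.R).val * Z) h
    simpa [← mul_assoc, hM] using h1
  have htr : M.trace = 1 + d := by
    have h := hrel
    have hc := cayley_two M
    rw [← hd] at hc
    have h1 : M * ((M.trace - (1 + d)) • 1) = M * 0 := by
      linear_combination (norm := (simp only [sub_mul, mul_sub, mul_one, one_mul, mul_zero,
        Matrix.smul_mul, Matrix.mul_smul]; module)) h - hc
    have h2 := congrFun₂ (hinj h1) 0 0
    simpa [sub_eq_zero] using h2
  obtain ⟨P, hP, hPP, hPtr, hPdet, hQ⟩ := exists_projection hu rfl hrel htr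
  set F : M2 L.R := ((L.ρ φ : GL (Fin 2) L.R) : M2 L.R) with hF
  -- on the stable line inertia acts by the determinant
  have hline : ∀ σ ∈ V.inertiaSubgroupIn ℚ,
      ((L.ρ σ : M2 L.R) - Matrix.det (L.ρ σ : M2 L.R) • 1) * (1 - P) = 0 := fun σ hσ => by
    rw [hQ, Matrix.mul_smul, ← neg_sub M 1, mul_neg, hid σ hσ σ₀ hσ₀, neg_zero, smul_zero]
  -- Frobenius preserves the line
  have hstab : P * (F * (1 - P)) = 0 := by
    have hσ' : φ⁻¹ * σ₀ * φ ∈ V.inertiaSubgroupIn ℚ := by
      have h1 := Places.conj_mem_inertia V hσ₀ φ⁻¹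
      rwa [inv_inv, MulAction.mem_stabilizer_iff.1
        (inv_mem (show φ ∈ V.decompositionSubgroup ℚ from hφ.1))] at h1
    have hdet : Matrix.det (L.ρ (φ⁻¹ * σ₀ * φ) : M2 L.R) = d := by
      rw [map_mul, map_mul, map_inv, Units.val_mul, Units.val_mul, Matrix.det_mul,
        Matrix.det_mul, hd, hM, mul_comm _ (Matrix.det (L.ρ σ₀ : M2 L.R)), mul_assoc,
        ← Matrix.det_mul, ← Units.val_mul, inv_mul_cancel, Units.val_one, Matrix.det_one, mul_one]
    have hcomm : M * F = F * (L.ρ (φ⁻¹ * σ₀ * φ) : M2 L.R) := by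
      simp only [hM, hF, ← Units.val_mul, ← map_mul]
      congr 2
      group
    have hconj : F * ((L.ρ (φ⁻¹ * σ₀ * φ) : M2 L.R) - d • 1) = (M - d • 1) * F := by
      rw [mul_sub, ← hcomm, sub_mul, Matrix.mul_smul, mul_one, Matrix.smul_mul, one_mul]
    have h1 := hline _ hσ'
    rw [hdet] at h1
    rw [hP, Matrix.smul_mul, ← hP, ← mul_assoc, ← hconj, mul_assoc, h1, mul_zero, smul_zero]
  set z : L.R := (P * F).trace with hz
  have hPF : P * F = z • P := by
    have h1 : P * F = P * F * P := by
      linear_combination (norm := (simp only [mul_sub, mul_one, ← mul_assoc]; module)) hstab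
    rw [h1, mul_mul_eq_trace_smul P F hPdet]
  set G : M2 L.R := ((L.ρ φ⁻¹ : GL (Fin 2) L.R) : M2 L.R) with hG
  have hFG : F * G = 1 := by simp [hF, hG]
  refine ⟨z, (P * G).trace, ?_, ?_, fun σ hσ => ?_, fun f hf => ?_⟩
  · have h1 : P = z • (P * G) := by
      rw [← Matrix.smul_mul, ← hPF, mul_assoc, hFG, mul_one]
    have h2 := congrArg Matrix.trace h1
    rw [hPtr, Matrix.trace_smul, smul_eq_mul] at h2
    exact h2.symm
  · have h1 : P.map L.red * (F.map L.red - residue O ε • 1) = 0 := by
      have h2 := hres σ₀ hσ₀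
      rw [← L.red_rho φ, ← hF, ← hredd, ← hd, ← L.red_rho σ₀, ← hM] at h2
      have h4 : P.map L.red = L.red u • (M.map L.red - L.red d • 1) := by
        rw [hP]
        ext i j
        simp [Matrix.one_apply, apply_ite L.red]
      rw [h4, Matrix.smul_mul, h2, smul_zero]
    rw [mul_sub, Matrix.mul_smul, mul_one, sub_eq_zero, ← Matrix.map_mul, hPF] at h1
    have h3 := congrArg Matrix.trace h1
    have hT : ∀ X : M2 L.R, (X.map L.red).trace = L.red X.trace := fun X =>
      (AddMonoidHom.map_trace L.red.toRingHom.toAddMonoidHom X).symm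
    rw [Matrix.trace_smul, hT, hT, Matrix.trace_smul, hPtr] at h3
    simpa using h3
  · have h1 : ((L.ρ σ : M2 L.R) - Matrix.det (L.ρ σ : M2 L.R) • 1) =
        ((L.ρ σ : M2 L.R) - Matrix.det (L.ρ σ : M2 L.R) • 1) * P := by
      linear_combination (norm := (simp only [mul_sub, mul_one]; module)) hline σ hσ
    rw [h1, mul_assoc, mul_sub, hPF, Matrix.mul_smul, mul_one, sub_self, mul_zero]
  · have h2 := hf σ₀ hσ₀
    rw [← hM, ← hd] at h2
    have h1 : P.map f * (F.map f - ε • 1) = 0 := by
      have h4 : P.map f = f u • (M - d • 1).map f := by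
        rw [hP]
        ext i j
        simp
      rw [h4, Matrix.smul_mul, h2, smul_zero]
    rw [mul_sub, Matrix.mul_smul, mul_one, sub_eq_zero, ← Matrix.map_mul, hPF] at h1
    have h3 := congrArg Matrix.trace h1
    have hT : ∀ X : M2 L.R, (X.map f).trace = f X.trace := fun X =>
      (AddMonoidHom.map_trace f.toRingHom.toAddMonoidHom X).symm
    rw [Matrix.trace_smul, hT, hT, Matrix.trace_smul, hPtr] at h3
    simpa using h3

end FLTAgent.ModLift
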